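import Fermat.Agent.S37.Core.Geo

/-!
# S37, piece [ES] E-c (helper246): multiset separation

`G : GeoRed A N`.  If two multisets `S`, `S'` of places of `F_k` (at which every reduction `c.sp`,
`c` integral over `A[j]`, has a value `val c Q`) satisfy
`∏_{Q ∈ S} (Y - val c Q) = ∏_{Q ∈ S'} (Y - val c Q)` for every such `c`, then `S = S'`.
Same statement in the chart at infinity (`IsInf`).

* `multiset_eq_of_forall_prod_eq` : the combinatorial core (any index type, any field);
* `hasValue_*` : calculus of `Core.HasValue`;
* `mulE`, `subC`, `constE` : ring operations on `Core.IntElt`;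
* `multiset_sep_fin`, `multiset_sep_inf` : the two statements.
-/

set_option autoImplicit false
set_option synthInstance.maxHeartbeats 400000

noncomputable section

namespace Fermat.Agent.S37.H246

open ModularCurve ValuationSubring AlgebraicCurve Polynomial Fermat.Agent.S37.Core

/-! ## Combinatorial core -/

theorem multiset_eq_of_forall_prod_eq {k P ι : Type*} [Field k] (val : ι → P → k)
    (S S' : Multiset P)
    (hsep : ∀ Q ∈ S + S', ∃ c : ι, val c Q ≠ 0 ∧ ∀ Q' ∈ S + S', Q' ≠ Q → val c Q' = 0)
    (hprod : ∀ c, (S.map fun Q => X - C (val c Q)).prod = (S'.map fun Q => X - C (val c Q)).prod) :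
    S = S' := by
  classical
  have hroots : ∀ c, S.map (val c) = S'.map (val c) := by
    intro c
    have h := congrArg Polynomial.roots (hprod c)
    have e1 : (S.map fun Q => X - C (val c Q)) = (S.map (val c)).map fun a => X - C a := by
      rw [Multiset.map_map]; rfl
    have e2 : (S'.map fun Q => X - C (val c Q)) = (S'.map (val c)).map fun a => X - C a := by
      rw [Multiset.map_map]; rfl
    rw [e1, e2, Polynomial.roots_multiset_prod_X_sub_C, Polynomial.roots_multiset_prod_X_sub_C]
      at h
    exact h
  have hcount : ∀ (T : Multiset P) (c : ι) (Q : P), T ≤ S + S' → val c Q ≠ 0 →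
      (∀ Q' ∈ S + S', Q' ≠ Q → val c Q' = 0) →
      (T.map (val c)).count (val c Q) = T.count Q := by
    intro T c Q hT hne hz
    rw [Multiset.count_map, Multiset.count_eq_card_filter_eq]
    congr 1
    refine Multiset.filter_congr fun Q' hQ' => ?_
    constructor
    · intro h
      by_contra hQQ
      have : val c Q' = 0 := hz Q' (Multiset.mem_of_le hT hQ') (fun e => hQQ e.symm)
      rw [this] at h
      exact hne h
    · intro h
      rw [h]
  ext Q
  by_cases hQ : Q ∈ S + S'
  · obtain ⟨c, hne, hz⟩ := hsep Q hQ
    rw [← hcount S c Q (Multiset.le_add_right S S') hne hz,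
      ← hcount S' c Q (Multiset.le_add_left S' S) hne hz, hroots c]
  · rw [Multiset.mem_add, not_or] at hQ
    rw [Multiset.count_eq_zero_of_notMem hQ.1, Multiset.count_eq_zero_of_notMem hQ.2]

/-! ## Calculus of `HasValue` -/

section HasValue

variable {K F : Type*} [Field K] [Field F] [Algebra K F] (P : Place K F)

theorem mem_of_hasValue {f : F} {b : K} (h : HasValue P f b) : f ∈ P.toValuationSubring := by
  have h1 : f - algebraMap K F b ∈ P.toValuationSubring :=
    ValuationSubring.nonunits_le h
  have h2 := P.toValuationSubring.add_mem _ _ h1 (P.algebraMap_mem' b)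
  simpa using h2

theorem hasValue_algebraMap (a : K) : HasValue P (algebraMap K F a) a := by
  unfold HasValue
  rw [sub_self, ValuationSubring.mem_nonunits_iff, map_zero]
  exact zero_lt_one

theorem hasValue_zero : HasValue P (0 : F) 0 := by
  simpa using hasValue_algebraMap P (0 : K)

theorem hasValue_one : HasValue P (1 : F) 1 := by
  simpa using hasValue_algebraMap P (1 : K)

theorem nonunits_add {x y : F} (hx : x ∈ P.toValuationSubring.nonunits)
    (hy : y ∈ P.toValuationSubring.nonunits) : x + y ∈ P.toValuationSubring.nonunits := by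
  rw [ValuationSubring.mem_nonunits_iff] at hx hy ⊢
  exact lt_of_le_of_lt (Valuation.map_add _ x y) (max_lt hx hy)

theorem nonunits_neg {x : F} (hx : x ∈ P.toValuationSubring.nonunits) :
    -x ∈ P.toValuationSubring.nonunits := by
  rw [ValuationSubring.mem_nonunits_iff] at hx ⊢
  rwa [Valuation.map_neg]

theorem nonunits_mul_mem {x y : F} (hx : x ∈ P.toValuationSubring.nonunits)
    (hy : y ∈ P.toValuationSubring) : x * y ∈ P.toValuationSubring.nonunits := by
  rw [ValuationSubring.mem_nonunits_iff] at hx ⊢
  rw [map_mul]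
  have hy' : P.toValuationSubring.valuation y ≤ 1 :=
    (ValuationSubring.valuation_le_one_iff _ _).mpr hy
  calc P.toValuationSubring.valuation x * P.toValuationSubring.valuation y
      ≤ P.toValuationSubring.valuation x * 1 := mul_le_mul_right hy' _
    _ = P.toValuationSubring.valuation x := mul_one _
    _ < 1 := hx

theorem hasValue_add {f g : F} {b b' : K} (h : HasValue P f b) (h' : HasValue P g b') :
    HasValue P (f + g) (b + b') := by
  unfold HasValue at h h' ⊢
  have := nonunits_add P h h'
  rw [map_add]
  convert this using 1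
  ring

theorem hasValue_neg {f : F} {b : K} (h : HasValue P f b) : HasValue P (-f) (-b) := by
  unfold HasValue at h ⊢
  have := nonunits_neg P h
  rw [map_neg]
  convert this using 1
  ring

theorem hasValue_sub {f g : F} {b b' : K} (h : HasValue P f b) (h' : HasValue P g b') :
    HasValue P (f - g) (b - b') := by
  rw [sub_eq_add_neg, sub_eq_add_neg]
  exact hasValue_add P h (hasValue_neg P h')

theorem hasValue_mul {f g : F} {b b' : K} (h : HasValue P f b) (h' : HasValue P g b') :
    HasValue P (f * g) (b * b') := by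
  have hg : g ∈ P.toValuationSubring := mem_of_hasValue P h'
  unfold HasValue at h h' ⊢
  have h1 := nonunits_mul_mem P h hg
  have h2 := nonunits_mul_mem P h' (P.algebraMap_mem' b)
  have := nonunits_add P h1 h2
  rw [map_mul]
  convert this using 1
  ring

theorem hasValue_unique {f : F} {b b' : K} (h : HasValue P f b) (h' : HasValue P f b') :
    b = b' := by
  by_contra hne
  have hd : b' - b ≠ 0 := sub_ne_zero.mpr (Ne.symm hne)
  unfold HasValue at h h'
  have h1 : algebraMap K F (b' - b) ∈ P.toValuationSubring.nonunits := by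
    have := nonunits_add P h (nonunits_neg P h')
    rw [map_sub]
    convert this using 1
    ring
  have h2 := nonunits_mul_mem P h1 (P.algebraMap_mem' (b' - b)⁻¹)
  rw [← map_mul, mul_inv_cancel₀ hd, map_one, ValuationSubring.mem_nonunits_iff, map_one] at h2
  exact lt_irrefl _ h2

end HasValue


/-! ## Ring operations on `IntElt` -/

section IntElt

variable {A : ValuationSubring (AlgebraicClosure ℚ)} {N : ℕ}

theorem coeffMap_C_eq {R L : Type*} [CommRing R] [Field L] (φ : R →+* L) (a : R) :
    coeffMap φ (HahnSeries.C a) = algebraMap L (LaurentSeries L) (φ a) := by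
  rw [algebraMap_laurentSeries_eq_single]
  exact coeffMap_single φ 0 a

/-- the constant `a ∈ A` -/
def constE (a : A) : IntElt A N where
  y := HahnSeries.C a
  mem := by
    rw [coeffMap_C_eq]
    exact IntermediateField.algebraMap_mem _ _
  memk := by
    rw [coeffMap_C_eq]
    exact IntermediateField.algebraMap_mem _ _

/-- product -/
def mulE (c d : IntElt A N) : IntElt A N where
  y := c.y * d.y
  mem := by
    rw [map_mul]
    exact mul_mem c.mem d.mem
  memk := by
    rw [map_mul]
    exact mul_mem c.memk d.memk

/-- subtraction of a constant -/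
def subC (c : IntElt A N) (a : A) : IntElt A N where
  y := c.y - HahnSeries.C a
  mem := by
    rw [map_sub]
    exact sub_mem c.mem (constE (N := N) a).mem
  memk := by
    rw [map_sub]
    exact sub_mem c.memk (constE (N := N) a).memk

theorem sp_constE (a : A) :
    (constE (N := N) a).sp =
      algebraMap (IsLocalRing.ResidueField A)
        (modularFunctionFieldFullC (IsLocalRing.ResidueField A) N) (IsLocalRing.residue A a) := by
  apply Subtype.ext
  exact coeffMap_C_eq _ a

theorem sp_mulE (c d : IntElt A N) : (mulE c d).sp = c.sp * d.sp := by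
  apply Subtype.ext
  exact map_mul (coeffMap (IsLocalRing.residue A)) c.y d.y

theorem sp_subC (c : IntElt A N) (a : A) :
    (subC c a).sp = c.sp -
      algebraMap (IsLocalRing.ResidueField A)
        (modularFunctionFieldFullC (IsLocalRing.ResidueField A) N) (IsLocalRing.residue A a) := by
  apply Subtype.ext
  show coeffMap (IsLocalRing.residue A) (c.y - HahnSeries.C a) = _
  rw [map_sub, coeffMap_C_eq]
  rfl

theorem isFin_iff (c : IntElt A N) :
    c.IsFin ↔ (evalSeries A (jqModC A)).IsIntegralElem c.y := Iff.rfl

theorem evalSeries_C (u : LaurentSeries A) (a : A) :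
    evalSeries A u (Polynomial.C a) = HahnSeries.C a := by
  simp [evalSeries]

theorem evalSeries_X (u : LaurentSeries A) : evalSeries A u Polynomial.X = u := by
  simp [evalSeries]

theorem isFin_constE (a : A) : (constE (N := N) a).IsFin := by
  rw [isFin_iff]
  show (evalSeries A (jqModC A)).IsIntegralElem (HahnSeries.C a)
  rw [← evalSeries_C (jqModC A) a]
  exact RingHom.isIntegralElem_map _

theorem isFin_mulE {c d : IntElt A N} (hc : c.IsFin) (hd : d.IsFin) :
    (mulE c d).IsFin :=
  RingHom.IsIntegralElem.mul _ hc hd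

theorem isFin_subC {c : IntElt A N} (hc : c.IsFin) (a : A) : (subC c a).IsFin :=
  RingHom.IsIntegralElem.sub _ hc (isFin_constE (N := N) a)

theorem isFin_of_eq_jq {j : IntElt A N} (hj : j.y = jqModC A) : j.IsFin := by
  rw [isFin_iff, hj]
  have := RingHom.isIntegralElem_map (evalSeries A (jqModC A)) (x := (Polynomial.X : Polynomial A))
  rwa [evalSeries_X] at this

theorem isInf_iff_of_inv {u : LaurentSeries A} (hu : u * jqModC A = 1) (c : IntElt A N) :
    c.IsInf ↔ (evalSeries A u).IsIntegralElem c.y := by
  constructor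
  · rintro ⟨u', hu', h⟩
    have : u' = u := by
      calc u' = u' * (u * jqModC A) := by rw [hu, mul_one]
        _ = (u' * jqModC A) * u := by ring
        _ = u := by rw [hu', one_mul]
    rw [this] at h
    exact h
  · intro h
    exact ⟨u, hu, h⟩

theorem isInf_constE {u : LaurentSeries A} (hu : u * jqModC A = 1) (a : A) :
    (constE (N := N) a).IsInf := by
  rw [isInf_iff_of_inv hu]
  show (evalSeries A u).IsIntegralElem (HahnSeries.C a)
  rw [← evalSeries_C u a]
  exact RingHom.isIntegralElem_map _

theorem isInf_mulE {u : LaurentSeries A} (hu : u * jqModC A = 1) {c d : IntElt A N}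
    (hc : c.IsInf) (hd : d.IsInf) : (mulE c d).IsInf := by
  rw [isInf_iff_of_inv hu] at hc hd ⊢
  exact RingHom.IsIntegralElem.mul _ hc hd

theorem isInf_subC {u : LaurentSeries A} (hu : u * jqModC A = 1) {c : IntElt A N}
    (hc : c.IsInf) (a : A) : (subC c a).IsInf := by
  have ha := isInf_constE (N := N) hu a
  rw [isInf_iff_of_inv hu] at hc ha ⊢
  exact RingHom.IsIntegralElem.sub _ hc ha

theorem isInf_of_mul_jq {j : IntElt A N} (hj : j.y * jqModC A = 1) : j.IsInf := by
  rw [isInf_iff_of_inv hj]
  have := RingHom.isIntegralElem_map (evalSeries A j.y) (x := (Polynomial.X : Polynomial A))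
  rwa [evalSeries_X] at this

end IntElt

/-! ## Multiset separation -/

section Sep

variable {A : ValuationSubring (AlgebraicClosure ℚ)} {N : ℕ} [NeZero N]

omit [NeZero N] in
/-- Abstract form: `good` is a class of integral elements closed under products and subtraction
of constants, containing `1`, with values `val` on the places in `S + S'`, and separating
these places pairwise. -/
theorem multiset_sep_core (good : IntElt A N → Prop)
    (h1 : good (constE 1)) (hmul : ∀ c d, good c → good d → good (mulE c d))
    (hsub : ∀ c a, good c → good (subC c a))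
    (S S' : Multiset (Place (IsLocalRing.ResidueField A)
      (modularFunctionFieldFullC (IsLocalRing.ResidueField A) N)))
    (val : IntElt A N → Place (IsLocalRing.ResidueField A)
      (modularFunctionFieldFullC (IsLocalRing.ResidueField A) N) → IsLocalRing.ResidueField A)
    (hval : ∀ c, good c → ∀ Q ∈ S + S', HasValue Q c.sp (val c Q))
    (hpair : ∀ Q ∈ S + S', ∀ Q' ∈ S + S', Q' ≠ Q → ∃ c, good c ∧ val c Q ≠ val c Q')
    (hprod : ∀ c, good c → (S.map fun Q => X - Polynomial.C (val c Q)).prod =
      (S'.map fun Q => X - Polynomial.C (val c Q)).prod) :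
    S = S' := by
  classical
  refine multiset_eq_of_forall_prod_eq (ι := {c : IntElt A N // good c})
    (fun c Q => val c.1 Q) S S' ?_ (fun c => hprod c.1 c.2)
  intro Q hQ
  -- values of the operations
  have hv1 : ∀ Q'' ∈ S + S', val (constE 1) Q'' = 1 := by
    intro Q'' hQ''
    refine hasValue_unique Q'' (hval _ h1 Q'' hQ'') ?_
    rw [sp_constE, map_one]
    exact hasValue_algebraMap Q'' 1
  have hvstep : ∀ (c c₁ : IntElt A N) (a₁ : A), good c → good c₁ → ∀ Q'' ∈ S + S',
      val (mulE c (subC c₁ a₁)) Q'' = val c Q'' * (val c₁ Q'' - IsLocalRing.residue A a₁) := by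
    intro c c₁ a₁ hc hc₁ Q'' hQ''
    refine hasValue_unique Q'' (hval _ (hmul _ _ hc (hsub _ _ hc₁)) Q'' hQ'') ?_
    rw [sp_mulE, sp_subC]
    exact hasValue_mul Q'' (hval c hc Q'' hQ'')
      (hasValue_sub Q'' (hval c₁ hc₁ Q'' hQ'') (hasValue_algebraMap Q'' _))
  have key : ∀ T : Finset (Place (IsLocalRing.ResidueField A)
      (modularFunctionFieldFullC (IsLocalRing.ResidueField A) N)),
      (∀ Q' ∈ T, Q' ∈ S + S' ∧ Q' ≠ Q) →
      ∃ c, good c ∧ val c Q ≠ 0 ∧ ∀ Q' ∈ T, val c Q' = 0 := by
    intro T
    induction T using Finset.induction_on with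
    | empty =>
      intro _
      refine ⟨constE 1, h1, ?_, fun Q' hQ' => absurd hQ' (Finset.notMem_empty _)⟩
      rw [hv1 Q hQ]
      exact one_ne_zero
    | insert Q₁ T hQ₁T ih =>
      intro hT
      obtain ⟨c, hc, hcQ, hcT⟩ := ih fun Q' hQ' => hT Q' (Finset.mem_insert_of_mem hQ')
      obtain ⟨hQ₁, hQ₁ne⟩ := hT Q₁ (Finset.mem_insert_self _ _)
      obtain ⟨c₁, hc₁, hne⟩ := hpair Q hQ Q₁ hQ₁ hQ₁ne
      obtain ⟨a₁, ha₁⟩ := IsLocalRing.residue_surjective (R := A) (val c₁ Q₁)
      refine ⟨mulE c (subC c₁ a₁), hmul _ _ hc (hsub _ _ hc₁), ?_, ?_⟩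
      · rw [hvstep c c₁ a₁ hc hc₁ Q hQ, ha₁]
        exact mul_ne_zero hcQ (sub_ne_zero.mpr hne)
      · intro Q' hQ'
        rcases Finset.mem_insert.mp hQ' with rfl | hQ'T
        · rw [hvstep c c₁ a₁ hc hc₁ _ hQ₁, ha₁, sub_self, mul_zero]
        · rw [hvstep c c₁ a₁ hc hc₁ Q' (hT Q' hQ').1, hcT Q' hQ'T, zero_mul]
  obtain ⟨c, hc, hcQ, hcT⟩ := key ((S + S').toFinset.erase Q) (by
    intro Q' hQ'
    rw [Finset.mem_erase, Multiset.mem_toFinset] at hQ'
    exact ⟨hQ'.2, hQ'.1⟩)
  refine ⟨⟨c, hc⟩, hcQ, fun Q' hQ' hne => hcT Q' ?_⟩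
  rw [Finset.mem_erase, Multiset.mem_toFinset]
  exact ⟨hne, hQ'⟩

/-- **E-c, finite chart.**  Multiset separation for the reductions of the elements integral
over `A[j]`. -/
theorem multiset_sep_fin (G : GeoRed A N) (j : IntElt A N) (hj : j.y = jqModC A)
    (S S' : Multiset (Place (IsLocalRing.ResidueField A)
      (modularFunctionFieldFullC (IsLocalRing.ResidueField A) N)))
    (val : IntElt A N → Place (IsLocalRing.ResidueField A)
      (modularFunctionFieldFullC (IsLocalRing.ResidueField A) N) → IsLocalRing.ResidueField A)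
    (hval : ∀ c : IntElt A N, c.IsFin → ∀ Q ∈ S + S', HasValue Q c.sp (val c Q))
    (hprod : ∀ c : IntElt A N, c.IsFin →
      (S.map fun Q => X - Polynomial.C (val c Q)).prod =
        (S'.map fun Q => X - Polynomial.C (val c Q)).prod) :
    S = S' := by
  refine multiset_sep_core (fun c => c.IsFin) (isFin_constE 1)
    (fun c d hc hd => isFin_mulE hc hd) (fun c a hc => isFin_subC hc a)
    S S' val hval ?_ hprod
  intro Q hQ Q' hQ' hne
  by_contra hall
  push Not at hall
  apply hne
  symm
  refine G.sep_fin j hj Q Q' (val j Q) (hval j (isFin_of_eq_jq hj) Q hQ) ?_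
  intro c hc b hb
  have : b = val c Q := hasValue_unique Q hb (hval c hc Q hQ)
  rw [this, hall c hc]
  exact hval c hc Q' hQ'

/-- **E-c, chart at infinity.**  Multiset separation for the reductions of the elements
integral over `A[j⁻¹]`. -/
theorem multiset_sep_inf (G : GeoRed A N) (j : IntElt A N) (hj : j.y * jqModC A = 1)
    (S S' : Multiset (Place (IsLocalRing.ResidueField A)
      (modularFunctionFieldFullC (IsLocalRing.ResidueField A) N)))
    (val : IntElt A N → Place (IsLocalRing.ResidueField A)
      (modularFunctionFieldFullC (IsLocalRing.ResidueField A) N) → IsLocalRing.ResidueField A)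
    (hval : ∀ c : IntElt A N, c.IsInf → ∀ Q ∈ S + S', HasValue Q c.sp (val c Q))
    (hprod : ∀ c : IntElt A N, c.IsInf →
      (S.map fun Q => X - Polynomial.C (val c Q)).prod =
        (S'.map fun Q => X - Polynomial.C (val c Q)).prod) :
    S = S' := by
  refine multiset_sep_core (fun c => c.IsInf) (isInf_constE hj 1)
    (fun c d hc hd => isInf_mulE hj hc hd) (fun c a hc => isInf_subC hj hc a)
    S S' val hval ?_ hprod
  intro Q hQ Q' hQ' hne
  by_contra hall
  push Not at hall
  apply hne
  symm
  refine G.sep_inf j hj Q Q' (val j Q) (hval j (isInf_of_mul_jq hj) Q hQ) ?_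
  intro c hc b hb
  have : b = val c Q := hasValue_unique Q hb (hval c hc Q hQ)
  rw [this, hall c hc]
  exact hval c hc Q' hQ'

end Sep

end Fermat.Agent.S37.H246
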